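import Mathlib.Analysis.SpecificLimits.Basic
import Mathlib.Algebra.Order.Archimedean.Real.Basic
import Mathlib.Topology.Order.MonotoneContinuity
import Mathlib.Topology.Order.IntermediateValue
import Mathlib.Tactic

/-!
# Minkowski's question-mark function

Its binary digits at `x` are read off the orbit of `x` under the Farey map `x / (1 - x)`,
`(2 x - 1) / x`; it is a strictly increasing continuous bijection of `[0, 1]`.
-/

set_option autoImplicit false

noncomputable section

open Filter Topology

namespace FA.QuestionMark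

/-- The Farey map. -/
def step (x : ℝ) : ℝ := if x < 1 / 2 then x / (1 - x) else (2 * x - 1) / x

/-- The binary digit. -/
def bit (x : ℝ) : ℝ := if x < 1 / 2 then 0 else 1

/-- **Minkowski's question-mark function.** -/
def questionMark (x : ℝ) : ℝ := ∑' n : ℕ, bit (step^[n] x) / 2 ^ (n + 1)

theorem bit_mem (x : ℝ) : 0 ≤ bit x ∧ bit x ≤ 1 := by
  unfold bit
  split_ifs <;> norm_num

theorem hasSum_geometric_half : HasSum (fun n : ℕ => (1 : ℝ) / 2 ^ (n + 1)) 1 := by
  have := hasSum_geometric_two' (1 : ℝ)
  convert this using 2 with n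
  rw [pow_succ', ← div_div]

theorem summable_bits (x : ℝ) : Summable fun n : ℕ => bit (step^[n] x) / 2 ^ (n + 1) :=
  hasSum_geometric_half.summable.of_nonneg_of_le
    (fun n => div_nonneg (bit_mem _).1 (by positivity))
    (fun n => div_le_div_of_nonneg_right (bit_mem _).2 (by positivity))

theorem questionMark_mem (x : ℝ) : 0 ≤ questionMark x ∧ questionMark x ≤ 1 :=
  ⟨tsum_nonneg fun n => div_nonneg (bit_mem _).1 (by positivity),
    ((summable_bits x).tsum_le_tsum
      (fun n => div_le_div_of_nonneg_right (bit_mem _).2 (by positivity))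
      hasSum_geometric_half.summable).trans_eq hasSum_geometric_half.tsum_eq⟩

theorem questionMark_eq (x : ℝ) : questionMark x = (bit x + questionMark (step x)) / 2 := by
  rw [questionMark, (summable_bits x).tsum_eq_zero_add, questionMark]
  simp only [Function.iterate_zero, id_eq, pow_one, zero_add]
  rw [add_div, ← tsum_div_const]
  congr 1
  refine tsum_congr fun n => ?_
  rw [Function.iterate_succ_apply, div_div, ← pow_succ]

theorem questionMark_low {x : ℝ} (h : x < 1 / 2) :
    questionMark x = questionMark (step x) / 2 := by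
  rw [questionMark_eq, bit, if_pos h, zero_add]

theorem questionMark_high {x : ℝ} (h : 1 / 2 ≤ x) :
    questionMark x = (1 + questionMark (step x)) / 2 := by
  rw [questionMark_eq, bit, if_neg h.not_gt]

theorem questionMark_zero : questionMark 0 = 0 := by
  have h0 : step 0 = 0 := by norm_num [step]
  have := questionMark_low (x := 0) (by norm_num)
  rw [h0] at this
  linarith

theorem questionMark_one : questionMark 1 = 1 := by
  have h1 : step 1 = 1 := by norm_num [step]
  have := questionMark_high (x := 1) (by norm_num)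
  rw [h1] at this
  linarith

theorem questionMark_half : questionMark (1 / 2) = 1 / 2 := by
  have h : step (1 / 2) = 0 := by norm_num [step]
  rw [questionMark_high le_rfl, h, questionMark_zero, add_zero]

theorem step_mem {x : ℝ} (hx : x ∈ Set.Icc (0 : ℝ) 1) : step x ∈ Set.Icc (0 : ℝ) 1 := by
  obtain ⟨h0, h1⟩ := hx
  unfold step
  split_ifs with h
  · refine ⟨div_nonneg h0 (by linarith), (div_le_one (by linarith)).2 (by linarith)⟩
  · exact ⟨div_nonneg (by linarith) h0, (div_le_one (by linarith)).2 (by linarith)⟩

theorem step_reflect {x : ℝ} (h : x < 1 / 2) : step (1 - x) = 1 - step x := by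
  rw [step, step, if_pos h, if_neg (by linarith)]
  have : 1 - x ≠ 0 := by linarith
  field_simp
  ring

theorem questionMark_reflect {x : ℝ} (hx : x ∈ Set.Icc (0 : ℝ) 1) :
    questionMark (1 - x) = 1 - questionMark x := by
  suffices ∀ n : ℕ, ∀ z ∈ Set.Icc (0 : ℝ) 1,
      |questionMark z + questionMark (1 - z) - 1| ≤ 1 / 2 ^ n by
    by_contra hne
    obtain ⟨n, hn⟩ := pow_unbounded_of_one_lt
      (1 / |questionMark x + questionMark (1 - x) - 1|) one_lt_two
    have hpos : 0 < |questionMark x + questionMark (1 - x) - 1| :=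
      abs_pos.2 fun h => hne (by linarith)
    rw [div_lt_iff₀ hpos] at hn
    have := this n x hx
    rw [le_div_iff₀ (by positivity)] at this
    linarith
  intro n
  induction n with
  | zero =>
    intro z _
    obtain ⟨a, b⟩ := questionMark_mem z
    obtain ⟨c, d⟩ := questionMark_mem (1 - z)
    rw [pow_zero, div_one, abs_le]
    constructor <;> linarith
  | succ n ih =>
    have low : ∀ z ∈ Set.Icc (0 : ℝ) 1, z < 1 / 2 →
        |questionMark z + questionMark (1 - z) - 1| ≤ 1 / 2 ^ (n + 1) := fun z hz h => by
      have := ih _ (step_mem hz)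
      rw [questionMark_low h, questionMark_high (x := 1 - z) (by linarith), step_reflect h,
        show questionMark (step z) / 2 + (1 + questionMark (1 - step z)) / 2 - 1 =
          (questionMark (step z) + questionMark (1 - step z) - 1) / 2 by ring,
        abs_div, abs_two, pow_succ, ← div_div]
      linarith
    intro z hz
    rcases lt_trichotomy z (1 / 2) with h | rfl | h
    · exact low z hz h
    · rw [show (1 : ℝ) - 1 / 2 = 1 / 2 by norm_num, questionMark_half]
      norm_num
    · have := low (1 - z) ⟨by linarith [hz.2], by linarith [hz.1]⟩ (by linarith)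
      rwa [sub_sub_cancel, add_comm (questionMark (1 - z))] at this

theorem questionMark_lt_one : ∀ (N : ℕ) {x : ℝ}, x ∈ Set.Icc (0 : ℝ) 1 → x < 1 →
    1 / (1 - x) < N → questionMark x < 1 := by
  intro N
  induction N with
  | zero =>
    intro x _ hx hN
    have : (0 : ℝ) < 1 / (1 - x) := one_div_pos.2 (by linarith)
    norm_num at hN
    linarith
  | succ N ih =>
    intro x hx hlt hN
    rcases lt_or_ge x (1 / 2) with h | h
    · linarith [questionMark_low h, (questionMark_mem (step x)).2]
    have hx0 : 0 < x := by linarith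
    have hs : 1 - step x = (1 - x) / x := by
      rw [step, if_neg h.not_gt]
      field_simp
      ring
    have hs' : 1 / (1 - step x) = 1 / (1 - x) - 1 := by
      have : 1 - x ≠ 0 := by linarith
      rw [hs]
      field_simp
      ring
    have := ih (step_mem hx) (by
      have : 0 < (1 - x) / x := div_pos (by linarith) hx0
      linarith) (by push_cast at hN; linarith)
    linarith [questionMark_high h]

theorem questionMark_lt_one' {x : ℝ} (hx : x ∈ Set.Icc (0 : ℝ) 1) (h : x < 1) :
    questionMark x < 1 := by
  obtain ⟨N, hN⟩ := exists_nat_gt (1 / (1 - x))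
  exact questionMark_lt_one N hx h hN

theorem questionMark_pos {x : ℝ} (hx : x ∈ Set.Icc (0 : ℝ) 1) (h : 0 < x) :
    0 < questionMark x := by
  have := questionMark_lt_one' (x := 1 - x) ⟨by linarith [hx.2], by linarith [hx.1]⟩ (by linarith)
  linarith [questionMark_reflect hx]

theorem step_lt_step {x y : ℝ} (hy1 : y ≤ 1) (hxy : x < y)
    (h : y < 1 / 2 ∨ 1 / 2 ≤ x) : step x < step y := by
  rcases h with h | h
  · rw [step, step, if_pos h, if_pos (hxy.trans h), div_lt_div_iff₀ (by linarith) (by linarith)]
    linarith
  · rw [step, step, if_neg h.not_gt, if_neg (h.trans hxy.le).not_gt,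
      div_lt_div_iff₀ (by linarith) (by linarith)]
    linarith

/-- Comparison with a rational number, by induction on the denominator. -/
theorem strict_at_rat : ∀ (N p q : ℕ), p + q < N → p ≤ q → 0 < q → ∀ x ∈ Set.Icc (0 : ℝ) 1,
    (x < (p : ℝ) / q → questionMark x < questionMark ((p : ℝ) / q)) ∧
      ((p : ℝ) / q < x → questionMark ((p : ℝ) / q) < questionMark x) := by
  intro N
  induction N with
  | zero => intro p q h; omega
  | succ N ih =>
    intro p q hN hpq hq x hx
    have hq' : (0 : ℝ) < q := Nat.cast_pos.2 hq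
    rcases Nat.eq_zero_or_pos p with rfl | hp
    · rw [Nat.cast_zero, zero_div, questionMark_zero]
      exact ⟨fun h => absurd hx.1 h.not_ge, questionMark_pos hx⟩
    rcases hpq.eq_or_lt with rfl | hlt
    · rw [div_self hq'.ne', questionMark_one]
      exact ⟨questionMark_lt_one' hx, fun h => absurd hx.2 h.not_ge⟩
    have hp' : (0 : ℝ) < p := Nat.cast_pos.2 hp
    have hr1 : (p : ℝ) / q ≤ 1 := (div_le_one hq').2 (by exact_mod_cast hpq)
    rcases lt_or_ge ((p : ℝ) / q) (1 / 2) with hr | hr
    · have h2 : 2 * p < q := by
        rw [div_lt_iff₀ hq'] at hr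
        have : (2 : ℝ) * p < q := by linarith
        exact_mod_cast this
      have hstep : step ((p : ℝ) / q) = (p : ℝ) / (q - p : ℕ) := by
        rw [step, if_pos hr, Nat.cast_sub hpq]
        field_simp
      obtain ⟨i1, i2⟩ := ih p (q - p) (by omega) (by omega) (by omega) (step x) (step_mem hx)
      rw [← hstep] at i1 i2
      refine ⟨fun h => ?_, fun h => ?_⟩
      · rw [questionMark_low hr, questionMark_low (h.trans hr)]
        linarith [i1 (step_lt_step hr1 h (Or.inl hr))]
      · rcases lt_or_ge x (1 / 2) with hx2 | hx2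
        · rw [questionMark_low hr, questionMark_low hx2]
          linarith [i2 (step_lt_step hx.2 h (Or.inl hx2))]
        · have : questionMark (step ((p : ℝ) / q)) < 1 := by
            refine questionMark_lt_one' (step_mem ⟨by positivity, hr1⟩) ?_
            rw [hstep, div_lt_one (by rw [Nat.cast_pos]; omega)]
            exact_mod_cast (by omega : p < q - p)
          linarith [questionMark_low hr, questionMark_high hx2, (questionMark_mem (step x)).1]
    · have h2 : q ≤ 2 * p := by
        rw [le_div_iff₀ hq'] at hr
        have : (q : ℝ) ≤ 2 * p := by linarith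
        exact_mod_cast this
      have hstep : step ((p : ℝ) / q) = ((2 * p - q : ℕ) : ℝ) / p := by
        rw [step, if_neg hr.not_gt, Nat.cast_sub h2]
        push_cast
        field_simp
      obtain ⟨i1, i2⟩ := ih (2 * p - q) p (by omega) (by omega) hp (step x) (step_mem hx)
      rw [← hstep] at i1 i2
      refine ⟨fun h => ?_, fun h => ?_⟩
      · rcases lt_or_ge x (1 / 2) with hx2 | hx2
        · have : questionMark (step x) < 1 := by
            refine questionMark_lt_one' (step_mem hx) ?_
            rw [step, if_pos hx2, div_lt_one (by linarith)]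
            linarith
          linarith [questionMark_high hr, questionMark_low hx2,
            (questionMark_mem (step ((p : ℝ) / q))).1]
        · rw [questionMark_high hr, questionMark_high hx2]
          linarith [i1 (step_lt_step hr1 h (Or.inr hx2))]
      · rw [questionMark_high hr, questionMark_high (hr.trans h.le)]
        linarith [i2 (step_lt_step hx.2 h (Or.inr hr))]

theorem strictMonoOn_questionMark : StrictMonoOn questionMark (Set.Icc (0 : ℝ) 1) := by
  intro x hx y hy hxy
  obtain ⟨r, h1, h2⟩ := exists_rat_btwn hxy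
  have hr0 : 0 ≤ r.num := Rat.num_nonneg.2 (by exact_mod_cast hx.1.trans h1.le)
  obtain ⟨p, hp⟩ := Int.eq_ofNat_of_zero_le hr0
  have hcast : (r : ℝ) = (p : ℝ) / r.den := by
    rw [Rat.cast_def, hp, Int.cast_natCast]
  have hpq : p ≤ r.den := by
    have h' : (p : ℝ) / r.den ≤ 1 := hcast ▸ h2.le.trans hy.2
    rw [div_le_one (Nat.cast_pos.2 r.den_pos)] at h'
    exact_mod_cast h'
  rw [hcast] at h1 h2
  exact ((strict_at_rat _ p r.den (Nat.lt_succ_self _) hpq r.den_pos x hx).1 h1).trans
    ((strict_at_rat _ p r.den (Nat.lt_succ_self _) hpq r.den_pos y hy).2 h2)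

theorem questionMark_div_one_add {x : ℝ} (hx : x ∈ Set.Icc (0 : ℝ) 1) :
    questionMark (x / (1 + x)) = questionMark x / 2 := by
  rcases hx.2.eq_or_lt with rfl | h
  · rw [questionMark_one, show (1 : ℝ) / (1 + 1) = 1 / 2 by norm_num, questionMark_half]
  have h0 : 0 < 1 + x := by linarith [hx.1]
  have hlt : x / (1 + x) < 1 / 2 := by rw [div_lt_iff₀ h0]; linarith
  rw [questionMark_low hlt]
  congr 2
  rw [step, if_pos hlt]
  field_simp
  ring

theorem questionMark_one_div_two_sub {x : ℝ} (hx : x ∈ Set.Icc (0 : ℝ) 1) :
    questionMark (1 / (2 - x)) = (1 + questionMark x) / 2 := by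
  have h0 : 0 < 2 - x := by linarith [hx.2]
  have hge : 1 / 2 ≤ 1 / (2 - x) := one_div_le_one_div_of_le h0 (by linarith [hx.1])
  rw [questionMark_high hge]
  congr 3
  rw [step, if_neg hge.not_gt]
  field_simp
  ring

theorem questionMark_one_div_add : ∀ (n : ℕ) {z : ℝ}, z ∈ Set.Icc (0 : ℝ) 1 →
    questionMark (1 / ((n : ℝ) + 1 + z)) = (1 - questionMark z / 2) / 2 ^ n := by
  intro n z hz
  induction n with
  | zero =>
    have h0 : 0 < 1 + z := by linarith [hz.1]
    have hmem : z / (1 + z) ∈ Set.Icc (0 : ℝ) 1 :=
      ⟨div_nonneg hz.1 h0.le, (div_le_one h0).2 (by linarith)⟩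
    have := questionMark_reflect hmem
    rw [questionMark_div_one_add hz, show 1 - z / (1 + z) = 1 / (1 + z) by field_simp; ring] at this
    simpa using this
  | succ n ih =>
    have hn : (0 : ℝ) < (n : ℝ) + 1 + z := by
      have := Nat.cast_nonneg (α := ℝ) n
      linarith [hz.1]
    have hmem : 1 / ((n : ℝ) + 1 + z) ∈ Set.Icc (0 : ℝ) 1 :=
      ⟨by positivity, (div_le_one hn).2 (by
        have := Nat.cast_nonneg (α := ℝ) n
        linarith [hz.1])⟩
    have := questionMark_div_one_add hmem
    rw [ih] at this
    rw [pow_succ, ← div_div, ← this]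
    congr 1
    rw [div_div, mul_add, mul_one, mul_one_div_cancel hn.ne']
    push_cast
    ring_nf

/-- Every dyadic number is the image of a rational. -/
theorem exists_rat_of_dyadic : ∀ (n m : ℕ), m ≤ 2 ^ n → ∃ r : ℚ, (r : ℝ) ∈ Set.Icc (0 : ℝ) 1 ∧
    questionMark r = (m : ℝ) / 2 ^ n := by
  intro n
  induction n with
  | zero =>
    intro m hm
    obtain rfl | rfl : m = 0 ∨ m = 1 := by omega
    · exact ⟨0, by simp, by simp [questionMark_zero]⟩
    · exact ⟨1, by simp, by simp [questionMark_one]⟩
  | succ n ih =>
    intro m hm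
    rcases le_or_gt m (2 ^ n) with h | h
    · obtain ⟨r, hr, he⟩ := ih m h
      have h0 : (0 : ℝ) < 1 + r := by linarith [hr.1]
      refine ⟨r / (1 + r), ?_, ?_⟩ <;> push_cast
      · exact ⟨div_nonneg hr.1 h0.le, (div_le_one h0).2 (by linarith)⟩
      · rw [questionMark_div_one_add hr, he, div_div, ← pow_succ]
    · obtain ⟨r, hr, he⟩ := ih (m - 2 ^ n) (by rw [pow_succ] at hm; omega)
      have h0 : (0 : ℝ) < 2 - r := by linarith [hr.2]
      refine ⟨1 / (2 - r), ?_, ?_⟩ <;> push_cast
      · exact ⟨by positivity, (div_le_one h0).2 (by linarith [hr.2])⟩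
      · rw [questionMark_one_div_two_sub hr, he, Nat.cast_sub h.le]
        push_cast
        field_simp
        ring

theorem continuousOn_questionMark : ContinuousOn questionMark (Set.Icc (0 : ℝ) 1) := by
  obtain ⟨F, hF⟩ : ∃ F : ℝ → ℝ, F = fun x =>
      if x ∈ Set.Icc (0 : ℝ) 1 then questionMark x else x := ⟨_, rfl⟩
  have hmono : Monotone F := by
    intro x y hxy
    rw [hF]
    simp only
    split_ifs with h1 h2 h2
    · exact strictMonoOn_questionMark.monotoneOn h1 h2 hxy
    · have : 1 < y := by
        by_contra! h
        exact h2 ⟨h1.1.trans hxy, h⟩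
      linarith [(questionMark_mem x).2]
    · have : x < 0 := by
        by_contra! h
        exact h1 ⟨h, hxy.trans h2.2⟩
      linarith [(questionMark_mem y).1]
    · exact hxy
  have hdense : DenseRange F := by
    refine Metric.dense_iff.2 fun t ε hε => ?_
    by_cases ht : t ∈ Set.Icc (0 : ℝ) 1
    · obtain ⟨n, hn⟩ := pow_unbounded_of_one_lt (1 / ε) one_lt_two
      rw [div_lt_iff₀ hε] at hn
      have h2 : (0 : ℝ) < 2 ^ n := by positivity
      have hfl : ⌊t * 2 ^ n⌋₊ ≤ 2 ^ n := by
        refine Nat.floor_le_of_le ?_
        push_cast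
        exact mul_le_of_le_one_left h2.le ht.2
      obtain ⟨r, hr, he⟩ := exists_rat_of_dyadic n _ hfl
      refine ⟨F r, ?_, Set.mem_range_self _⟩
      rw [hF, Metric.mem_ball, Real.dist_eq]
      simp only [if_pos hr, he]
      rw [abs_lt]
      constructor
      · have := Nat.lt_floor_add_one (t * 2 ^ n)
        rw [lt_sub_iff_add_lt, lt_div_iff₀ h2]
        linarith
      · have := Nat.floor_le (mul_nonneg ht.1 h2.le)
        rw [sub_lt_iff_lt_add, div_lt_iff₀ h2]
        linarith
    · exact ⟨F t, by rw [hF]; simp only [if_neg ht]; exact Metric.mem_ball_self hε,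
        Set.mem_range_self _⟩
  exact (hmono.continuous_of_denseRange hdense).continuousOn.congr fun x hx => by
    rw [hF]
    simp only [if_pos hx]

theorem bijOn_questionMark :
    Set.BijOn questionMark (Set.Icc (0 : ℝ) 1) (Set.Icc (0 : ℝ) 1) := by
  refine ⟨fun x _ => questionMark_mem x, strictMonoOn_questionMark.injOn, fun t ht => ?_⟩
  have := intermediate_value_Icc zero_le_one continuousOn_questionMark
  rw [questionMark_zero, questionMark_one] at this
  exact this ht

end FA.QuestionMark

end
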