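import Fermat.Agent.QuestionMark.Basic
import Fermat.Agent.Lochs.Main
import Mathlib.Analysis.Calculus.Monotone
import Mathlib.Analysis.Real.Pi.Bounds
import Mathlib.Analysis.Complex.ExponentialBounds
import Mathlib.MeasureTheory.Integral.IntervalIntegral.AbsolutelyContinuousFun

/-!
# The question-mark function is singular

On the cylinder of the first `k` digits of `x` the function rises by `2 ^ (-S)`, `S` their sum, and
the cylinder has length about `1 / q ^ 2`. Almost everywhere `log q / k → π ^ 2 / (12 log 2)`, and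
Birkhoff's theorem at `min (a, 15)` gives `S ≥ (4 - ε) k`, so the slopes tend to zero.
-/

set_option autoImplicit false

noncomputable section

open MeasureTheory Filter Topology Set Real
open FA.PeriodicFractions FA.PointwiseErgodic FA.Lochs

namespace FA.QuestionMark

/-- The sum of the first digits. -/
def digitSum (x : ℝ) (n : ℕ) : ℤ := ∑ i ∈ Finset.range n, digit x (i + 1)

theorem branch_spec {x : ℝ} (hx : x ∈ unitIrr) : ∀ n,
    (∀ t ∈ Icc (0 : ℝ) 1, branch x n t ∈ Icc (0 : ℝ) 1) ∧
      ∀ s ∈ Icc (0 : ℝ) 1, ∀ t ∈ Icc (0 : ℝ) 1,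
        |questionMark (branch x n s) - questionMark (branch x n t)| =
          |questionMark s - questionMark t| / (2 : ℝ) ^ (digitSum x n).toNat
  | 0 => by
    have hb : ∀ t, branch x 0 t = t := fun t => by
      simp [branch, contin, digit_unitIrr_zero hx]
    simp [hb, digitSum]
  | n + 1 => by
    obtain ⟨hmem, hval⟩ := branch_spec hx n
    have ha := one_le_digit hx.2 n
    obtain ⟨m, hm⟩ : ∃ m : ℕ, digit x (n + 1) = (m : ℤ) + 1 :=
      ⟨(digit x (n + 1) - 1).toNat, by omega⟩
    have hb : ∀ t ∈ Icc (0 : ℝ) 1,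
        branch x (n + 1) t = branch x n (1 / ((m : ℝ) + 1 + t)) ∧
          1 / ((m : ℝ) + 1 + t) ∈ Icc (0 : ℝ) 1 := fun t ht => by
      obtain ⟨hq0, hq', -⟩ := den_bounds hx.2 n
      have h0 : (0 : ℝ) < (contin x (n + 1)).2.2.1 := by exact_mod_cast hq0
      have h1 : (0 : ℝ) ≤ (contin x (n + 1)).2.2.2 := by exact_mod_cast hq'
      have hm0 := Nat.cast_nonneg (α := ℝ) m
      have hpos : 0 < (m : ℝ) + 1 + t := by linarith [ht.1]
      have hs : ((m : ℝ) + 1 + t) * (1 / ((m : ℝ) + 1 + t)) = 1 := mul_one_div_cancel hpos.ne'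
      refine ⟨?_, by positivity, (div_le_one hpos).2 (by linarith [ht.1])⟩
      have hA : 0 < ((contin x (n + 1)).2.2.1 : ℝ) * ((m : ℝ) + 1) +
          (contin x (n + 1)).2.2.2 + (contin x (n + 1)).2.2.1 * t := by
        nlinarith [mul_pos h0 hpos]
      have hB : 0 < ((contin x (n + 1)).2.2.1 : ℝ) +
          (contin x (n + 1)).2.2.2 * (1 / ((m : ℝ) + 1 + t)) := by positivity
      rw [branch, branch, contin.eq_def x (n + 1 + 1)]
      simp only [hm]
      push_cast
      rw [div_eq_div_iff hA.ne' hB.ne']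
      linear_combination (((contin x (n + 1)).1 : ℝ) * (contin x (n + 1)).2.2.2 -
        ((contin x (n + 1)).2.1 : ℝ) * (contin x (n + 1)).2.2.1) * hs
    refine ⟨fun t ht => (hb t ht).1.symm ▸ hmem _ (hb t ht).2, fun s hs t ht => ?_⟩
    rw [(hb s hs).1, (hb t ht).1, hval _ (hb s hs).2 _ (hb t ht).2, questionMark_one_div_add m hs,
      questionMark_one_div_add m ht]
    have hsum : (digitSum x (n + 1)).toNat = (digitSum x n).toNat + (m + 1) := by
      have h0 : 0 ≤ digitSum x n :=
        Finset.sum_nonneg fun i _ => zero_le_one.trans (one_le_digit hx.2 i)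
      rw [digitSum, Finset.sum_range_succ, ← digitSum, hm]
      omega
    rw [hsum, pow_add, ← sub_div, abs_div, abs_of_pos (by positivity : (0 : ℝ) < 2 ^ m),
      show (1 - questionMark s / 2) - (1 - questionMark t / 2) =
        -((questionMark s - questionMark t) / 2) by ring, abs_neg, abs_div, abs_two, pow_succ]
    field_simp

/-- The lower bound `min (a, 15)` for a digit. -/
def capDigit (u : ℝ) : ℝ :=
  ∑ j ∈ Finset.range 15, (Iic (1 / ((j : ℝ) + 1))).indicator (fun _ => (1 : ℝ)) u

theorem capDigit_le {u : ℝ} (hu : u ∈ Ioo (0 : ℝ) 1) : capDigit u ≤ ⌊u⁻¹⌋ := by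
  have hone : 1 ≤ ⌊u⁻¹⌋ := Int.le_floor.2 (by exact_mod_cast ((one_lt_inv₀ hu.1).2 hu.2).le)
  have e : ∀ j : ℕ, (Iic (1 / ((j : ℝ) + 1))).indicator (fun _ => (1 : ℝ)) u ≤
      if j < ⌊u⁻¹⌋.toNat then 1 else 0 := fun j => by
    by_cases h : u ∈ Iic (1 / ((j : ℝ) + 1))
    · rw [indicator_of_mem h, if_pos]
      have h' : ((j : ℤ) + 1 : ℤ) ≤ ⌊u⁻¹⌋ := Int.le_floor.2 (by
        push_cast
        rw [le_inv_comm₀ (by positivity) hu.1, ← one_div]
        exact h)
      omega
    · rw [indicator_of_notMem h]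
      split_ifs <;> norm_num
  refine (Finset.sum_le_sum fun j _ => e j).trans ?_
  rw [Finset.sum_boole]
  have hc : ((Finset.range 15).filter fun j => j < ⌊u⁻¹⌋.toNat).card ≤ ⌊u⁻¹⌋.toNat := by
    refine (Finset.card_le_card (t := Finset.range ⌊u⁻¹⌋.toNat) fun j hj => ?_).trans
      (Finset.card_range _).le
    exact Finset.mem_range.2 (Finset.mem_filter.1 hj).2
  have hz : ((((Finset.range 15).filter fun j => j < ⌊u⁻¹⌋.toNat).card : ℕ) : ℤ) ≤ ⌊u⁻¹⌋ := by
    omega
  exact_mod_cast hz

theorem integrable_capDigit : Integrable capDigit gaussMeasure :=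
  integrable_finsetSum _ fun _ _ => (integrable_const (1 : ℝ)).indicator measurableSet_Iic

theorem integral_capDigit : ∫ u, capDigit u ∂gaussMeasure = 4 := by
  have hl := log_pos one_lt_two
  have hj : ∀ j : ℕ, gaussMeasure.real (Iic (1 / ((j : ℝ) + 1))) =
      (log ((j : ℝ) + 2) - log ((j : ℝ) + 1)) / log 2 := fun j => by
    have hle : 1 / ((j : ℝ) + 1) ≤ 1 :=
      (div_le_one (by positivity)).2 (by linarith [Nat.cast_nonneg (α := ℝ) j])
    have he : Iic (1 / ((j : ℝ) + 1)) =ᵐ[gaussMeasure] Icc 0 (1 / ((j : ℝ) + 1)) := by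
      filter_upwards [ae_gaussMeasure_mem] with u hu
      exact propext ⟨fun h => ⟨hu.1.le, h⟩, fun h => h.2⟩
    rw [measureReal_congr he, measureReal_def, gaussMeasure_Icc le_rfl (by positivity) hle,
      add_zero, log_one, sub_zero, ENNReal.toReal_ofReal
        (div_nonneg (log_nonneg (le_add_of_nonneg_right (by positivity))) hl.le),
      ← log_div (by positivity) (by positivity)]
    congr 2
    field_simp
    ring
  unfold capDigit
  rw [integral_finsetSum _ fun j _ => (integrable_const (1 : ℝ)).indicator measurableSet_Iic]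
  simp only [integral_indicator_const _ measurableSet_Iic, smul_eq_mul, mul_one, hj,
    ← Finset.sum_div]
  have h := Finset.sum_range_sub (fun j : ℕ => log ((j : ℝ) + 1)) 15
  simp only [Nat.cast_add, Nat.cast_one, add_assoc, one_add_one_eq_two] at h
  rw [h, Nat.cast_zero, zero_add, log_one, sub_zero, show ((15 : ℕ) : ℝ) + 1 = 2 ^ 4 by norm_num,
    log_pow]
  push_cast
  field_simp

/-- **The slopes tend to zero.** -/
theorem ae_slope : ∀ᵐ x : ℝ, Irrational x ∧
    Tendsto (fun k : ℕ => -2 * log (orbitProd x k) - digitSum (Int.fract x) k * log 2) atTop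
      atBot ∧ Tendsto (orbitProd x) atTop (𝓝 0) := by
  have h := tendsto_average_ergodic ergodic_gaussMap integrable_capDigit
  rw [integral_capDigit] at h
  filter_upwards [ae_real_of_gauss h, ae_orbitProd] with x ⟨hx, hcap⟩ ⟨_, hF⟩
  have hl := log_pos one_lt_two
  set L := π ^ 2 / (12 * log 2)
  have hL0 : 0 < L := by positivity
  have hneg : 2 * L - 4 * log 2 < 0 := by
    have h1 := Real.log_two_gt_d9
    have h2 := Real.pi_lt_d2
    have h3 := Real.pi_pos
    have h4 : L * (12 * log 2) = π ^ 2 := div_mul_cancel₀ _ (by positivity)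
    nlinarith
  refine ⟨hx, ?_, ?_⟩
  · refine tendsto_atBot_mono' _ ?_ (((hF.const_mul 2).sub (hcap.mul_const (log 2))).neg_mul_atTop
      hneg tendsto_natCast_atTop_atTop)
    filter_upwards [eventually_ne_atTop 0] with k hk
    have hk' : (k : ℝ) ≠ 0 := Nat.cast_ne_zero.2 hk
    have hmem := fract_mem hx
    have hS : birkhoffAverage ℝ gaussMap capDigit k (Int.fract x) * k ≤
        (digitSum (Int.fract x) k : ℝ) := by
      rw [birkhoffAverage, birkhoffSum, smul_eq_mul, mul_comm, ← mul_assoc,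
        mul_inv_cancel₀ hk', one_mul, digitSum, Int.cast_sum]
      refine Finset.sum_le_sum fun i _ => (capDigit_le (iterate_mem_unitIrr hmem i).1).trans_eq ?_
      rw [digit_eq_iterate hmem.2, Int.fract_fract]
    have hS' := mul_le_mul_of_nonneg_right hS hl.le
    have e : (2 * (-log (orbitProd x k) / k) -
        birkhoffAverage ℝ gaussMap capDigit k (Int.fract x) * log 2) * k =
        -2 * log (orbitProd x k) -
          birkhoffAverage ℝ gaussMap capDigit k (Int.fract x) * k * log 2 := by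
      field_simp
    rw [e]
    linarith
  · have hF' : Tendsto (fun k : ℕ => -log (orbitProd x k)) atTop atTop := by
      refine Tendsto.congr' ?_ (hF.pos_mul_atTop hL0 tendsto_natCast_atTop_atTop)
      filter_upwards [eventually_ne_atTop 0] with k hk
      exact div_mul_cancel₀ _ (Nat.cast_ne_zero.2 hk)
    exact (tendsto_exp_neg_atTop_nhds_zero.comp hF').congr fun k => by
      rw [Function.comp_apply, neg_neg, exp_log (orbitProd_pos hx k)]

/-- **The derivative is zero almost everywhere.** -/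
theorem ae_hasDerivAt_zero :
    ∀ᵐ x : ℝ, x ∈ Ioo (0 : ℝ) 1 → HasDerivAt questionMark 0 x := by
  filter_upwards [ae_slope,
    strictMonoOn_questionMark.monotoneOn.ae_differentiableWithinAt_of_mem]
    with x ⟨hirr, hS, hP⟩ hdiff hx
  have hd := ((hdiff (Ioo_subset_Icc_self hx)).differentiableAt
    (Icc_mem_nhds hx.1 hx.2)).hasDerivAt
  suffices h0 : deriv questionMark x = 0 by rwa [h0] at hd
  have hmem : x ∈ unitIrr := ⟨hx, hirr⟩
  have hfr : Int.fract x = x := Int.fract_eq_self.2 ⟨hx.1.le, hx.2⟩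
  rw [hfr] at hS
  by_contra hne
  set d := deriv questionMark x
  have hε : 0 < |d| / 16 := div_pos (abs_pos.2 hne) (by norm_num)
  obtain ⟨δ, hδ, hball⟩ := Metric.eventually_nhds_iff.1 ((hasDerivAt_iff_isLittleO.1 hd).def hε)
  have hexp := tendsto_exp_atBot.comp hS
  obtain ⟨k, hk1, hk2⟩ := ((hexp.eventually_lt_const (show (0 : ℝ) < |d| / 4 by positivity)).and
    (((hP.pow 2).const_mul 4).eventually_lt_const (show (4 : ℝ) * 0 ^ 2 < δ by
      simpa using hδ))).exists
  rw [Function.comp_apply] at hk1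
  obtain ⟨hb0, hb1, hb2⟩ := den_bounds hmem.2 k
  set q : ℝ := ((contin x (k + 1)).2.2.1 : ℝ) with hq
  set q' : ℝ := ((contin x (k + 1)).2.2.2 : ℝ) with hq'
  have hq0 : 0 < q := by rw [hq]; exact_mod_cast hb0
  have hq1 : 0 ≤ q' := by rw [hq']; exact_mod_cast hb1
  have hq2 : q' ≤ q := by rw [hq, hq']; exact_mod_cast hb2
  have hP0 := orbitProd_pos hmem.2 k
  obtain ⟨hP1, hP2⟩ := orbitProd_bounds hmem.2 k
  rw [hfr, ← hq] at hP1 hP2
  have ht := (iterate_mem_unitIrr hmem k).1
  have hbr : branch x k (gaussMap^[k] x) = x := branch_iterate ⟨hmem, fun _ _ => rfl⟩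
  have hnear : ∀ s ∈ Icc (0 : ℝ) 1, |branch x k s - x| ≤ 1 / q ^ 2 := fun s hs => by
    rw [show branch x k s - x = branch x k s - branch x k (gaussMap^[k] x) by rw [hbr]]
    rw [abs_branch_sub hmem.2 k hs.1 ht.1.le, sq]
    refine div_le_div₀ zero_le_one (abs_sub_le_iff.2 ⟨by linarith [hs.2, ht.1],
      by linarith [hs.1, ht.2]⟩) (mul_pos hq0 hq0) ?_
    exact mul_le_mul (le_add_of_nonneg_right (mul_nonneg hq1 hs.1))
      (le_add_of_nonneg_right (mul_nonneg hq1 ht.1.le)) hq0.le
      (add_nonneg hq0.le (mul_nonneg hq1 hs.1))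
  have hq4 : 1 / q ^ 2 ≤ 4 * orbitProd x k ^ 2 := by
    have h1 := pow_le_pow_left₀ (by positivity) hP1 2
    rw [div_pow, one_pow, mul_pow, ← div_div, div_le_iff₀ (by positivity)] at h1
    rw [div_le_iff₀ (by positivity)]
    linarith
  have hclose : ∀ s ∈ Icc (0 : ℝ) 1, |questionMark (branch x k s) - questionMark x -
      (branch x k s - x) * d| ≤ |d| / 16 * (1 / q ^ 2) := fun s hs => by
    have h := @hball (branch x k s) (by
      rw [Real.dist_eq]
      exact lt_of_le_of_lt ((hnear s hs).trans hq4) hk2)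
    rw [Real.norm_eq_abs, Real.norm_eq_abs, smul_eq_mul] at h
    exact h.trans (mul_le_mul_of_nonneg_left (hnear s hs) hε.le)
  have h01 := (branch_spec hmem k).2 1 ⟨zero_le_one, le_rfl⟩ 0 ⟨le_rfl, zero_le_one⟩
  rw [questionMark_one, questionMark_zero, sub_zero, abs_one] at h01
  have hlen : 1 / (2 * q ^ 2) ≤ |branch x k 1 - branch x k 0| := by
    rw [abs_branch_sub hmem.2 k zero_le_one le_rfl, sub_zero, abs_one, mul_one, mul_zero, add_zero,
      ← hq, ← hq']
    refine one_div_le_one_div_of_le (mul_pos (add_pos_of_pos_of_nonneg hq0 hq1) hq0) ?_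
    nlinarith
  have c1 := hclose 1 ⟨zero_le_one, le_rfl⟩
  have c0 := hclose 0 ⟨le_rfl, zero_le_one⟩
  have hsec : |(branch x k 1 - branch x k 0) * d| ≤
      1 / (2 : ℝ) ^ (digitSum x k).toNat + 2 * (|d| / 16 * (1 / q ^ 2)) := by
    rw [← h01]
    have e : (branch x k 1 - branch x k 0) * d =
        (questionMark (branch x k 1) - questionMark (branch x k 0)) -
          ((questionMark (branch x k 1) - questionMark x - (branch x k 1 - x) * d) -
            (questionMark (branch x k 0) - questionMark x - (branch x k 0 - x) * d)) := by ring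
    rw [e]
    refine (abs_sub _ _).trans (add_le_add le_rfl ((abs_sub _ _).trans ?_))
    linarith
  have hrise : 1 / (2 : ℝ) ^ (digitSum x k).toNat < |d| / 4 * (1 / q ^ 2) := by
    have hS0 : 0 ≤ digitSum x k :=
      Finset.sum_nonneg fun i _ => zero_le_one.trans (one_le_digit hmem.2 i)
    have e : exp (-2 * log (orbitProd x k) - (digitSum x k : ℝ) * log 2) =
        1 / orbitProd x k ^ 2 / (2 : ℝ) ^ (digitSum x k).toNat := by
      rw [exp_sub, show -2 * log (orbitProd x k) = -log (orbitProd x k ^ 2) by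
          rw [log_pow]; push_cast; ring, exp_neg, exp_log (by positivity), one_div]
      congr 1
      rw [← rpow_natCast, rpow_def_of_pos two_pos, mul_comm (log 2)]
      congr 2
      exact_mod_cast (Int.toNat_of_nonneg hS0).symm
    rw [e] at hk1
    have h1 : q ^ 2 ≤ 1 / orbitProd x k ^ 2 := by
      rw [le_div_iff₀ (by positivity), ← mul_pow]
      refine pow_le_one₀ (by positivity) ?_
      rw [le_div_iff₀ hq0] at hP2
      linarith
    have h2 := (div_le_div_of_nonneg_right h1 (by positivity :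
      (0 : ℝ) ≤ (2 : ℝ) ^ (digitSum x k).toNat)).trans_lt hk1
    rw [mul_one_div, lt_div_iff₀ (by positivity), one_div_mul_eq_div]
    exact h2
  rw [abs_mul] at hsec
  have h3 := mul_le_mul_of_nonneg_right hlen (abs_nonneg d)
  have h4 : (1 : ℝ) / (2 * q ^ 2) * |d| = |d| / 2 * (1 / q ^ 2) := by ring
  have h5 : 0 < |d| * (1 / q ^ 2) := mul_pos (abs_pos.2 hne) (by positivity)
  linarith

/-- It is not the integral of its derivative. -/
theorem not_absolutelyContinuous_questionMark :
    ∫ x in (0 : ℝ)..1, deriv questionMark x = 0 ∧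
      ¬AbsolutelyContinuousOnInterval questionMark 0 1 := by
  have h0 : ∫ x in (0 : ℝ)..1, deriv questionMark x = 0 := by
    refine intervalIntegral.integral_zero_ae ?_
    have h1 : ∀ᵐ x : ℝ, x ≠ 1 := by simp [ae_iff]
    filter_upwards [ae_hasDerivAt_zero, h1] with x hx hx1 hmem
    rw [uIoc_of_le zero_le_one] at hmem
    exact (hx ⟨hmem.1, hmem.2.lt_of_ne hx1⟩).deriv
  refine ⟨h0, fun h => ?_⟩
  have := h.integral_deriv_eq_sub
  rw [h0, questionMark_one, questionMark_zero] at this
  norm_num at this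

end FA.QuestionMark

end
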