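import Fermat.Agent.QuestionMark.Basic
import Fermat.Agent.PeriodicFractions.Lagrange

/-!
# The values of the question-mark function at rationals and quadratic irrationals

Rational numbers go to dyadic numbers. A rational value means an eventually periodic orbit under
the Farey map, hence a fixed point of a nonnegative unimodular map, so a root of an integral
quadratic; conversely the orbit of a quadratic irrational is finite by Lagrange's theorem.
-/

set_option autoImplicit false

noncomputable section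

open FA.PeriodicFractions

namespace FA.QuestionMark

theorem dyadic_of_rat : ∀ (N p q : ℕ), p + q < N → p ≤ q → 0 < q →
    ∃ n m : ℕ, questionMark ((p : ℝ) / q) = (m : ℝ) / 2 ^ n := by
  intro N
  induction N with
  | zero => intro p q h; omega
  | succ N ih =>
    intro p q hN hpq hq
    rcases Nat.eq_zero_or_pos p with rfl | hp
    · exact ⟨0, 0, by simp [questionMark_zero]⟩
    rcases hpq.eq_or_lt with rfl | hlt
    · exact ⟨0, 1, by simp [questionMark_one, hp.ne']⟩
    have hq' : (0 : ℝ) < q := Nat.cast_pos.2 hq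
    have hp' : (0 : ℝ) < p := Nat.cast_pos.2 hp
    rcases lt_or_ge ((p : ℝ) / q) (1 / 2) with hr | hr
    · have h2 : 2 * p < q := by
        rw [div_lt_iff₀ hq'] at hr
        have : (2 : ℝ) * p < q := by linarith
        exact_mod_cast this
      obtain ⟨n, m, he⟩ := ih p (q - p) (by omega) (by omega) (by omega)
      refine ⟨n + 1, m, ?_⟩
      rw [questionMark_low hr, step, if_pos hr, pow_succ, ← div_div, ← he, Nat.cast_sub hpq]
      field_simp
    · have h2 : q ≤ 2 * p := by
        rw [le_div_iff₀ hq'] at hr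
        have : (q : ℝ) ≤ 2 * p := by linarith
        exact_mod_cast this
      obtain ⟨n, m, he⟩ := ih (2 * p - q) p (by omega) (by omega) hp
      refine ⟨n + 1, 2 ^ n + m, ?_⟩
      rw [Nat.cast_sub h2] at he
      push_cast at he
      rw [questionMark_high hr, step, if_neg hr.not_gt,
        show (2 * ((p : ℝ) / q) - 1) / ((p : ℝ) / q) = (2 * (p : ℝ) - q) / p by field_simp, he]
      push_cast
      field_simp
      ring

theorem rational_iff_dyadic {x : ℝ} (hx : x ∈ Set.Icc (0 : ℝ) 1) :
    (∃ r : ℚ, (r : ℝ) = x) ↔ ∃ n m : ℕ, questionMark x = (m : ℝ) / 2 ^ n := by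
  constructor
  · rintro ⟨r, rfl⟩
    obtain ⟨p, hp⟩ := Int.eq_ofNat_of_zero_le (Rat.num_nonneg.2 (by exact_mod_cast hx.1))
    have hcast : (r : ℝ) = (p : ℝ) / r.den := by rw [Rat.cast_def, hp, Int.cast_natCast]
    have h1 := hx.2
    rw [hcast, div_le_one (Nat.cast_pos.2 r.den_pos), Nat.cast_le] at h1
    rw [hcast]
    exact dyadic_of_rat _ p r.den (Nat.lt_succ_self _) h1 r.den_pos
  · rintro ⟨n, m, he⟩
    have hm : m ≤ 2 ^ n := by
      have := (questionMark_mem x).2
      rw [he, div_le_one (by positivity)] at this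
      exact_mod_cast this
    obtain ⟨r, hr, he'⟩ := exists_rat_of_dyadic n m hm
    exact ⟨r, strictMonoOn_questionMark.injOn hr hx (he'.trans he.symm)⟩

theorem iterate_mem {x : ℝ} (hx : x ∈ Set.Icc (0 : ℝ) 1) :
    ∀ n, step^[n] x ∈ Set.Icc (0 : ℝ) 1 := fun n => by
  induction n with
  | zero => exact hx
  | succ n ih => rw [Function.iterate_succ_apply']; exact step_mem ih

theorem exists_int_part (x : ℝ) : ∀ n : ℕ, ∃ k : ℕ,
    questionMark x * 2 ^ n = k + questionMark (step^[n] x) := fun n => by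
  induction n with
  | zero => exact ⟨0, by simp⟩
  | succ n ih =>
    obtain ⟨k, hk⟩ := ih
    rw [questionMark_eq (step^[n] x), ← Function.iterate_succ_apply' step] at hk
    rcases lt_or_ge (step^[n] x) (1 / 2) with h | h
    · refine ⟨2 * k, ?_⟩
      rw [bit, if_pos h] at hk
      rw [pow_succ, ← mul_assoc, hk]
      push_cast
      ring
    · refine ⟨2 * k + 1, ?_⟩
      rw [bit, if_neg h.not_gt] at hk
      rw [pow_succ, ← mul_assoc, hk]
      push_cast
      ring

/-- `x` is a root of a nonzero integral polynomial of degree at most two. -/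
def IsRoot2 (x : ℝ) : Prop :=
  ∃ A B C : ℤ, (A ≠ 0 ∨ B ≠ 0 ∨ C ≠ 0) ∧ (A : ℝ) * x ^ 2 + B * x + C = 0

theorem isRoot2_of_step {z : ℝ} (h : IsRoot2 (step z)) : IsRoot2 z := by
  obtain ⟨A, B, C, hne, he⟩ := h
  unfold step at he
  split_ifs at he with hz
  · refine ⟨A - B + C, B - 2 * C, C, by omega, ?_⟩
    have : 1 - z ≠ 0 := by linarith
    field_simp at he
    push_cast
    linear_combination he
  · refine ⟨4 * A + 2 * B + C, -4 * A - B, A, by omega, ?_⟩
    have : z ≠ 0 := by
      intro h0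
      rw [h0] at hz
      norm_num at hz
    field_simp at he
    push_cast
    linear_combination he

/-- The orbit is given by nonnegative unimodular maps. -/
theorem exists_matrix {x : ℝ} (hx : x ∈ Set.Icc (0 : ℝ) 1) : ∀ n : ℕ, ∃ a b c d : ℕ,
    a * d = b * c + 1 ∧ n + 2 ≤ a + b + c + d ∧
      x * ((c : ℝ) * step^[n] x + d * (1 - step^[n] x)) =
        (1 - x) * ((a : ℝ) * step^[n] x + b * (1 - step^[n] x)) := by
  intro n
  induction n with
  | zero => exact ⟨1, 0, 0, 1, by simp, by norm_num, by simp; ring⟩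
  | succ n ih =>
    obtain ⟨a, b, c, d, hdet, hsum, he⟩ := ih
    obtain ⟨h0, h1⟩ := iterate_mem hx n
    have had : 0 < a ∧ 0 < d := by
      constructor <;> refine Nat.pos_of_ne_zero fun h => ?_ <;> subst h <;> simp at hdet
    rw [Function.iterate_succ_apply']
    generalize step^[n] x = z at h0 h1 he ⊢
    rcases lt_or_ge z (1 / 2) with hz | hz
    · refine ⟨a + b, b, c + d, d, by rw [add_mul, hdet]; ring, by omega, ?_⟩
      rw [step, if_pos hz]
      have : 1 - z ≠ 0 := by linarith
      push_cast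
      field_simp
      linear_combination he
    · refine ⟨a, a + b, c, c + d, by rw [mul_add, hdet]; ring, by omega, ?_⟩
      rw [step, if_neg hz.not_gt]
      have : z ≠ 0 := by linarith
      push_cast
      field_simp
      linear_combination he

theorem isRoot2_of_rational_value {y : ℝ} (hy : y ∈ Set.Icc (0 : ℝ) 1)
    (h : ∃ r : ℚ, (r : ℝ) = questionMark y) : IsRoot2 y := by
  obtain ⟨r, hr⟩ := h
  let value : ℕ → ℤ := fun n => ⌊questionMark (step^[n] y) * r.den⌋
  have hval : ∀ n, (value n : ℝ) = questionMark (step^[n] y) * r.den := fun n => by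
    obtain ⟨k, hk⟩ := exists_int_part y n
    have e : questionMark (step^[n] y) * r.den =
        ((r.num * 2 ^ n - (k : ℤ) * r.den : ℤ) : ℝ) := by
      have hd : (r : ℝ) * r.den = r.num := by exact_mod_cast Rat.mul_den_eq_num r
      rw [hr] at hd
      push_cast
      linear_combination (-(r.den : ℝ)) * hk + (2 : ℝ) ^ n * hd
    simp only [value, e, Int.floor_intCast]
  have hrange : ∀ n, value n ∈ Finset.Icc (0 : ℤ) r.den := fun n => by
    obtain ⟨a, b⟩ := questionMark_mem (step^[n] y)
    rw [Finset.mem_Icc]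
    constructor
    · exact Int.floor_nonneg.2 (mul_nonneg a (Nat.cast_nonneg _))
    · exact Int.floor_le_iff.2 (by push_cast; nlinarith)
  obtain ⟨i, j, hne, he⟩ := Finite.exists_ne_map_eq_of_infinite
    fun n => (⟨value n, hrange n⟩ : (Finset.Icc (0 : ℤ) r.den))
  have he' : step^[i] y = step^[j] y := by
    refine strictMonoOn_questionMark.injOn (iterate_mem hy i) (iterate_mem hy j) ?_
    have := congrArg (fun v => ((v : ℤ) : ℝ)) (congrArg Subtype.val he)
    simp only [hval] at this
    exact mul_right_cancel₀ (Nat.cast_ne_zero.2 r.den_pos.ne') this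
  obtain ⟨i, n, hn, hper⟩ : ∃ i n, 0 < n ∧ step^[n] (step^[i] y) = step^[i] y := by
    rcases hne.lt_or_gt with h | h
    · exact ⟨i, j - i, by omega, by
        rw [← Function.iterate_add_apply, Nat.sub_add_cancel h.le, he']⟩
    · exact ⟨j, i - j, by omega, by
        rw [← Function.iterate_add_apply, Nat.sub_add_cancel h.le, he']⟩
  obtain ⟨a, b, c, d, hdet, hsum, hM⟩ := exists_matrix (iterate_mem hy i) n
  rw [hper] at hM
  have hroot : IsRoot2 (step^[i] y) := by
    refine ⟨(c : ℤ) - d + a - b, (d : ℤ) - a + 2 * b, -(b : ℤ), ?_, ?_⟩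
    · by_contra! h0
      obtain ⟨h0, h1, h2⟩ := h0
      obtain rfl : b = 0 := by omega
      obtain rfl : d = a := by omega
      obtain rfl : c = 0 := by omega
      have : d * d = 1 := by omega
      have := Nat.eq_one_of_mul_eq_one_right this
      omega
    · push_cast
      linear_combination hM
  clear hM hper hsum he' he
  induction i with
  | zero => simpa using hroot
  | succ i ih =>
    rw [Function.iterate_succ_apply'] at hroot
    exact ih (isRoot2_of_step hroot)

theorem finite_orbit {y : ℝ} (hy : y ∈ Set.Icc (0 : ℝ) 1) (hirr : Irrational y)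
    (h : IsQuadraticIrrational y⁻¹) : ∃ i j, i < j ∧ step^[i] y = step^[j] y := by
  have hw : Irrational y⁻¹ := hirr.inv
  let S : Set ℝ := ⋃ v ∈ Set.range (cq y⁻¹),
    ((fun i : ℕ => 1 / (v - i)) '' ↑(Finset.range ⌊v⌋.toNat) ∪
      (fun i : ℕ => 1 - 1 / (v - i)) '' ↑(Finset.range ⌊v⌋.toNat))
  have hfin : S.Finite := (finite_range_cq h).biUnion fun v _ =>
    ((Finset.finite_toSet _).image _).union ((Finset.finite_toSet _).image _)
  have mem : ∀ z, z ∈ S ↔ ∃ m i : ℕ, (i : ℤ) < digit y⁻¹ m ∧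
      (z = 1 / (cq y⁻¹ m - i) ∨ z = 1 - 1 / (cq y⁻¹ m - i)) := fun z => by
    simp only [S, Set.mem_iUnion, Set.mem_range, Set.mem_union, Set.mem_image, Finset.coe_range,
      Set.mem_Iio, Int.lt_toNat, digit]
    constructor
    · rintro ⟨v, ⟨m, rfl⟩, ⟨i, hi, rfl⟩ | ⟨i, hi, rfl⟩⟩
      exacts [⟨m, i, hi, Or.inl rfl⟩, ⟨m, i, hi, Or.inr rfl⟩]
    · rintro ⟨m, i, hi, rfl | rfl⟩
      exacts [⟨_, ⟨m, rfl⟩, Or.inl ⟨i, hi, rfl⟩⟩, ⟨_, ⟨m, rfl⟩, Or.inr ⟨i, hi, rfl⟩⟩]
  have hy0 : 0 < y := hy.1.lt_of_ne (fun h0 => hirr.ne_int 0 (by simp [← h0]))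
  have hd : ∀ m, 1 ≤ digit y⁻¹ m := fun m => by
    rcases m with _ | m
    · refine Int.le_floor.2 ?_
      simp only [cq, Int.cast_one]
      exact (one_le_inv₀ hy0).2 hy.2
    · exact one_le_digit hw m
  have hstart : y ∈ S := (mem y).2
    ⟨0, 0, by have := hd 0; omega, Or.inl (by simp [cq])⟩
  -- one step keeps to `S`
  have main : ∀ m i : ℕ, (i : ℤ) < digit y⁻¹ m →
      ∀ z, z = 1 / (cq y⁻¹ m - i) → step z ∈ S ∧ step (1 - z) ∈ S := by
    intro m i hi z hz
    have hv' : 1 < cq y⁻¹ (m + 1) := one_lt_cq hw m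
    have hinv0 : 0 < 1 / cq y⁻¹ (m + 1) := one_div_pos.2 (by linarith)
    have hinv1 : 1 / cq y⁻¹ (m + 1) < 1 := (div_lt_one (by linarith)).2 hv'
    rw [cq_eq y⁻¹ m] at hz
    rcases (show (i : ℤ) + 1 < digit y⁻¹ m ∨ (i : ℤ) + 1 = digit y⁻¹ m by omega) with hlt | heq
    · have h2 : (i : ℝ) + 2 ≤ digit y⁻¹ m := by exact_mod_cast (by omega : (i : ℤ) + 2 ≤ _)
      have hpos : 2 < (digit y⁻¹ m : ℝ) + 1 / cq y⁻¹ (m + 1) - i := by linarith
      have hz2 : z < 1 / 2 := by
        rw [hz]
        exact one_div_lt_one_div_of_lt two_pos hpos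
      have hs : step z = 1 / (cq y⁻¹ m - (i + 1 : ℕ)) := by
        rw [step, if_pos hz2, hz, cq_eq y⁻¹ m]
        generalize 1 / cq y⁻¹ (m + 1) = e at hinv0 hinv1 hpos
        have h0 : (digit y⁻¹ m : ℝ) + e - i ≠ 0 := by linarith
        rw [one_sub_div h0, div_div_div_cancel_right₀ h0]
        push_cast
        rw [sub_sub]
      refine ⟨(mem _).2 ⟨m, i + 1, by push_cast; omega, Or.inl hs⟩,
        (mem _).2 ⟨m, i + 1, by push_cast; omega, Or.inr ?_⟩⟩
      rw [step_reflect hz2, hs]
    · have heq' : (digit y⁻¹ m : ℝ) = i + 1 := by exact_mod_cast heq.symm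
      have hz' : z = 1 / (1 + 1 / cq y⁻¹ (m + 1)) := by
        rw [hz, heq']
        congr 1
        ring
      have hz2 : 1 / 2 < z := by
        rw [hz']
        exact one_div_lt_one_div_of_lt (by linarith) (by linarith)
      have hs : step z = 1 - 1 / (cq y⁻¹ (m + 1) - (0 : ℕ)) := by
        rw [step, if_neg hz2.le.not_gt, hz', Nat.cast_zero, sub_zero]
        generalize 1 / cq y⁻¹ (m + 1) = e at hinv0
        have : 1 + e ≠ 0 := by linarith
        field_simp
        ring
      have hs' : step (1 - z) = 1 / (cq y⁻¹ (m + 1) - (0 : ℕ)) := by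
        have := step_reflect (x := 1 - z) (by linarith)
        rw [sub_sub_cancel, hs] at this
        linarith
      exact ⟨(mem _).2 ⟨m + 1, 0, by have := hd (m + 1); omega, Or.inr hs⟩,
        (mem _).2 ⟨m + 1, 0, by have := hd (m + 1); omega, Or.inl hs'⟩⟩
  have horb : ∀ n, step^[n] y ∈ S := fun n => by
    induction n with
    | zero => exact hstart
    | succ n ih =>
      rw [Function.iterate_succ_apply']
      obtain ⟨m, i, hi, h1 | h1⟩ := (mem _).1 ih
      · exact (main m i hi _ h1).1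
      · rw [h1]
        exact (main m i hi _ rfl).2
  have := hfin.to_subtype
  obtain ⟨i, j, hne, he⟩ := Finite.exists_ne_map_eq_of_infinite
    fun n => (⟨_, horb n⟩ : S)
  rcases hne.lt_or_gt with h | h
  · exact ⟨i, j, h, congrArg Subtype.val he⟩
  · exact ⟨j, i, h, (congrArg Subtype.val he).symm⟩

theorem rational_value_iff {y : ℝ} (hy : y ∈ Set.Icc (0 : ℝ) 1) :
    (∃ r : ℚ, (r : ℝ) = questionMark y) ↔ IsRoot2 y := by
  refine ⟨isRoot2_of_rational_value hy, fun h => ?_⟩
  by_cases hirr : Irrational y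
  · obtain ⟨A, B, C, hne, he⟩ := h
    have hy0 : y ≠ 0 := fun h0 => hirr.ne_int 0 (by simp [h0])
    have hC : C ≠ 0 := by
      rintro rfl
      push_cast at he
      have h1 : (A : ℝ) * y + B = 0 := by
        refine mul_right_cancel₀ hy0 ?_
        linear_combination he
      rcases eq_or_ne A 0 with rfl | hA
      · have : (B : ℝ) = 0 := by simpa using h1
        simp [Int.cast_eq_zero.1 this] at hne
      · refine hirr.ne_rational (-B) A ?_
        rw [eq_div_iff (Int.cast_ne_zero.2 hA), Int.cast_neg]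
        linarith
    have hq : IsQuadraticIrrational y⁻¹ := by
      refine ⟨hirr.inv, C, B, A, hC, ?_⟩
      field_simp
      linear_combination he
    obtain ⟨i, j, hij, he'⟩ := finite_orbit hy hirr hq
    obtain ⟨k, hk⟩ := exists_int_part y i
    obtain ⟨l, hl⟩ := exists_int_part y j
    rw [he'] at hk
    refine ⟨((l : ℚ) - k) / (2 ^ j - 2 ^ i), ?_⟩
    have hne2 : (2 : ℝ) ^ j - 2 ^ i ≠ 0 :=
      sub_ne_zero.2 (pow_lt_pow_right₀ one_lt_two hij).ne'
    push_cast
    rw [div_eq_iff hne2]
    linear_combination hk - hl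
  · have h' : ∃ r : ℚ, (r : ℝ) = y := not_not.1 hirr
    obtain ⟨n, m, hm⟩ := (rational_iff_dyadic hy).1 h'
    exact ⟨(m : ℚ) / 2 ^ n, by rw [hm]; push_cast; rfl⟩

end FA.QuestionMark

end
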